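import Fermat.Agent.PermutationPolynomial.Hermite
import Mathlib.RingTheory.Polynomial.Dickson
import Mathlib.RingTheory.RootsOfUnity.EnoughRootsOfUnity
import Mathlib.RingTheory.RootsOfUnity.AlgebraicallyClosed
import Mathlib.FieldTheory.IsAlgClosed.AlgebraicClosure
import Mathlib.NumberTheory.LSeries.PrimesInAP

/-!
# The Dickson permutation polynomials

Write `x = y + a / y`; then `D n (x, a) = y ^ n + (a / y) ^ n`, and for `x` in the field of `q`
elements `y ^ (q ^ 2 - 1) = 1`. So `n` prime to `q ^ 2 - 1` gives a bijection. For a prime `d`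
dividing both, `y` and `ζ y`, `ζ` of order `d`, give two values of `x` with the same image.
-/

set_option autoImplicit false
set_option linter.style.haveILetI false

noncomputable section

namespace FA.PermutationPolynomial

open Polynomial

/-- **The functional equation.** -/
theorem dickson_eval_add {R : Type*} [CommRing R] (u v : R) :
    ∀ n, (dickson 1 (u * v) n).eval (u + v) = u ^ n + v ^ n
  | 0 => by norm_num [dickson_zero]
  | 1 => by simp [dickson_one]
  | n + 2 => by
    rw [dickson_add_two, eval_sub, eval_mul, eval_mul, eval_X, eval_C, dickson_eval_add u v n,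
      dickson_eval_add u v (n + 1)]
    ring

theorem dickson_eval_map {R S : Type*} [CommRing R] [CommRing S] (φ : R →+* S) (a x : R) (n : ℕ) :
    φ ((dickson 1 a n).eval x) = (dickson 1 (φ a) n).eval (φ x) := by
  rw [← map_dickson φ, eval_map_apply]

variable {F : Type*} [Field F] [Fintype F]

local notation "q" => Fintype.card F

omit [Field F] in
theorem sq_sub_one : (q + 1) * (q - 1) = q ^ 2 - 1 := by
  rw [← Nat.sq_sub_sq, one_pow]

/-- The points fixed by Frobenius. -/
theorem exists_of_frobenius_fixed {k : Type*} [Field k] [Algebra F k] {y : k} (hy : y ^ q = y) :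
    ∃ x : F, algebraMap F k x = y := by
  classical
  have hsplit : (X ^ q - X : F[X]).Splits := by
    rw [splits_iff_card_roots, FiniteField.roots_X_pow_card_sub_X,
      FiniteField.X_pow_card_sub_X_natDegree_eq F Fintype.one_lt_card]
    rfl
  have hmap : (X ^ q - X : F[X]).map (algebraMap F k) = X ^ q - X := by simp
  have hmem : y ∈ ((X ^ q - X : F[X]).map (algebraMap F k)).roots := by
    rw [hmap, mem_roots (FiniteField.X_pow_card_sub_X_ne_zero k Fintype.one_lt_card)]
    simp [hy]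
  rw [hsplit.roots_map, FiniteField.roots_X_pow_card_sub_X, Multiset.mem_map] at hmem
  exact hmem.imp fun x h => h.2

/-- **Injectivity.** -/
theorem dickson_bijective {n : ℕ} (hn : n.Coprime (q ^ 2 - 1)) {a : F} (ha : a ≠ 0) :
    Function.Bijective fun x => (dickson 1 a n).eval x := by
  classical
  refine Finite.injective_iff_bijective.1 fun x₁ x₂ h => ?_
  set k := AlgebraicClosure F
  set φ := algebraMap F k
  set Φ := FiniteField.frobeniusAlgHom F k
  have hroots : ∀ x : F, ∃ u v : k,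
      φ x = u + v ∧ φ a = u * v ∧ u ^ (q ^ 2 - 1) = 1 ∧ v ^ (q ^ 2 - 1) = 1 := fun x => by
    obtain ⟨u, hu⟩ := IsAlgClosed.exists_root (C 1 * X ^ 2 + C (-φ x) * X + C (φ a)) (by
      rw [degree_quadratic one_ne_zero]; decide)
    simp only [IsRoot.def, eval_add, eval_mul, eval_C, eval_pow, eval_X, one_mul] at hu
    have huv : φ a = u * (φ x - u) := by linear_combination hu
    have hu0 : u ≠ 0 := fun e => ha (φ.injective (by rw [huv, e, zero_mul, map_zero]))
    have hp : u ^ (q ^ 2 - 1) = 1 := by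
      have hx : (φ x) ^ q = φ x := by rw [← map_pow, FiniteField.pow_card]
      have hsum : u ^ q + (φ x - u) ^ q = φ x := by
        have := map_add Φ u (φ x - u)
        simp only [Φ, FiniteField.coe_frobeniusAlgHom, add_sub_cancel] at this
        rw [← this, hx]
      have hprod : u ^ q * (φ x - u) ^ q = u * (φ x - u) := by
        rw [← mul_pow, ← huv, ← map_pow, FiniteField.pow_card]
      have h0 : (u ^ q - u) * (u ^ q - (φ x - u)) = 0 := by
        linear_combination u ^ q * hsum - hprod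
      rcases mul_eq_zero.1 h0 with h1 | h1 <;> rw [sub_eq_zero] at h1
      · have : u ^ (q - 1) = 1 := mul_right_cancel₀ hu0 (by
          rw [← pow_succ, Nat.sub_add_cancel Fintype.card_pos, h1, one_mul])
        rw [← sq_sub_one, pow_mul', this, one_pow]
      · have : u ^ (q + 1) = φ a := by rw [pow_succ', h1, huv]
        rw [← sq_sub_one, pow_mul, this, ← map_pow, FiniteField.pow_card_sub_one_eq_one a ha,
          map_one]
    refine ⟨u, φ x - u, by ring, huv, hp, ?_⟩
    have h2 : (φ a) ^ (q ^ 2 - 1) = 1 := by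
      rw [← sq_sub_one, pow_mul', ← map_pow, FiniteField.pow_card_sub_one_eq_one a ha, map_one,
        one_pow]
    rwa [huv, mul_pow, hp, one_mul] at h2
  obtain ⟨u, v, hx, ha', hu, hv⟩ := hroots x₁
  obtain ⟨u', v', hx', ha'', hu', hv'⟩ := hroots x₂
  have h1 := congrArg φ h
  simp only [dickson_eval_map, hx, hx'] at h1
  conv_lhs at h1 => rw [ha', dickson_eval_add]
  conv_rhs at h1 => rw [ha'', dickson_eval_add]
  have h2 : u ^ n * v ^ n = u' ^ n * v' ^ n := by rw [← mul_pow, ← mul_pow, ← ha', ← ha'']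
  have h3 : (u ^ n - u' ^ n) * (u ^ n - v' ^ n) = 0 := by linear_combination u ^ n * h1 - h2
  have hm : q ^ 2 - 1 ≠ 0 := by
    have := Fintype.one_lt_card (α := F)
    rw [← sq_sub_one]
    exact Nat.mul_ne_zero (by omega) (by omega)
  have key : ∀ w w' : k, w ^ (q ^ 2 - 1) = 1 → w' ^ (q ^ 2 - 1) = 1 → w ^ n = w' ^ n → w = w' :=
    fun w w' hw hw' e => by
    have hw0 : w' ≠ 0 := fun h0 => by rw [h0, zero_pow hm] at hw'; exact zero_ne_one hw'
    have := (pow_gcd_eq_one (a := w / w') (m := n) (n := q ^ 2 - 1)).2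
      ⟨by rw [div_pow, e, div_self (pow_ne_zero _ hw0)], by rw [div_pow, hw, hw', div_one]⟩
    rwa [hn, pow_one, div_eq_one_iff_eq hw0] at this
  have hu0 : u ≠ 0 := fun h0 => by rw [h0, zero_pow hm] at hu; exact zero_ne_one hu
  refine φ.injective ?_
  rcases mul_eq_zero.1 h3 with h4 | h4 <;> rw [sub_eq_zero] at h4
  · obtain rfl := key u u' hu hu' h4
    rw [hx, hx', mul_left_cancel₀ hu0 (ha'.symm.trans ha'')]
  · obtain rfl := key u v' hu hv' h4
    rw [hx, hx', mul_left_cancel₀ hu0 (show u * v = u * u' by rw [← ha', ha'', mul_comm]),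
      add_comm]

/-- **Two points with the same image.** -/
theorem dickson_not_injective {n d : ℕ} (hd : d.Prime) (hdn : d ∣ n) (hdq : d ∣ q ^ 2 - 1)
    {a : F} (ha : a ≠ 0) : ¬ Function.Injective fun x => (dickson 1 a n).eval x := by
  classical
  intro hinj
  set k := AlgebraicClosure F
  set φ := algebraMap F k
  set Φ := FiniteField.frobeniusAlgHom F k
  have hq : 1 < q := Fintype.one_lt_card
  have hdk : (d : F) ≠ 0 := fun h => by
    obtain ⟨p, _, m, hp, hcard⟩ := FiniteField.card' (K := F)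
    rw [CharP.cast_eq_zero_iff F p, Nat.prime_dvd_prime_iff_eq hp hd] at h
    subst h
    have h1 : p ∣ q ^ 2 := dvd_pow (hcard ▸ dvd_pow_self p m.pos.ne') two_ne_zero
    exact hd.one_lt.ne' (Nat.dvd_one.1 ((Nat.dvd_add_right hdq).1 (by
      rwa [Nat.sub_add_cancel (Nat.one_le_pow 2 _ (by omega))])))
  by_cases h2 : d = 2
  · subst h2
    obtain ⟨u, hu⟩ := IsAlgClosed.exists_root (C 1 * X ^ 2 + C (-1 : k) * X + C (φ a)) (by
      rw [degree_quadratic one_ne_zero]; decide)
    simp only [IsRoot.def, eval_add, eval_mul, eval_C, eval_pow, eval_X, one_mul] at hu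
    have huv : φ a = u * (1 - u) := by linear_combination hu
    have hev : Even n := even_iff_two_dvd.2 hdn
    have e : φ ((dickson 1 a n).eval 1) = φ ((dickson 1 a n).eval (-1)) := by
      rw [dickson_eval_map, dickson_eval_map, map_neg, map_one, huv]
      conv_lhs => rw [show (1 : k) = u + (1 - u) by ring,
        show u * (u + (1 - u) - u) = u * (1 - u) by ring, dickson_eval_add]
      conv_rhs => rw [show u * (1 - u) = -u * -(1 - u) by ring,
        show (-1 : k) = -u + -(1 - u) by ring, dickson_eval_add, hev.neg_pow, hev.neg_pow]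
    have h11 : (1 : F) = -1 := hinj (φ.injective e)
    exact hdk (by push_cast; linear_combination h11)
  -- an odd prime
  have hd3 : 3 ≤ d := by have := hd.two_le; omega
  haveI : NeZero (d : k) := ⟨by rw [← map_natCast φ]; exact (map_ne_zero φ).2 hdk⟩
  haveI : NeZero d := ⟨hd.ne_zero⟩
  obtain ⟨ζ, hζ⟩ := HasEnoughRootsOfUnity.exists_primitiveRoot k d
  obtain ⟨y, hy0, hy⟩ : ∃ y : k, y ≠ 0 ∧ ∀ i : ℕ,
      (y * ζ ^ i + φ a / (y * ζ ^ i)) ^ q = y * ζ ^ i + φ a / (y * ζ ^ i) := by
    have haq : (φ a) ^ q = φ a := by rw [← map_pow, FiniteField.pow_card]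
    have hΦ : ∀ s t : k, (s + t) ^ q = s ^ q + t ^ q := fun s t => by
      have := map_add Φ s t
      simpa only [Φ, FiniteField.coe_frobeniusAlgHom] using this
    rw [← sq_sub_one, hd.dvd_mul] at hdq
    rcases hdq with hdq | hdq
    · obtain ⟨y, hy⟩ := IsAlgClosed.exists_pow_nat_eq (φ a) (Nat.succ_pos q)
      have hy0 : y ≠ 0 := fun e => by
        rw [e, zero_pow (Nat.succ_ne_zero q)] at hy
        exact ha (φ.injective (by rw [← hy, map_zero]))
      have hζ1 : ζ ^ (q + 1) = 1 := (hζ.pow_eq_one_iff_dvd _).2 hdq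
      refine ⟨y, hy0, fun i => ?_⟩
      set w := y * ζ ^ i
      have hw0 : w ≠ 0 := mul_ne_zero hy0 (pow_ne_zero _ (hζ.ne_zero hd.ne_zero))
      have hw : w ^ q = φ a / w := by
        rw [eq_div_iff hw0, ← pow_succ, mul_pow, ← pow_mul ζ, mul_comm i, pow_mul, hζ1, one_pow,
          mul_one, hy]
      have ha0 : φ a ≠ 0 := (map_ne_zero φ).2 ha
      rw [hΦ, div_pow, haq, hw, div_div_cancel₀ ha0, add_comm]
    · have hζ1 : ζ ^ q = ζ := by
        rw [← Nat.sub_add_cancel hq.le, pow_succ, (hζ.pow_eq_one_iff_dvd _).2 hdq, one_mul]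
      refine ⟨1, one_ne_zero, fun i => ?_⟩
      rw [one_mul, hΦ, div_pow, haq, ← pow_mul, mul_comm, pow_mul, hζ1]
  -- two candidates
  obtain ⟨w, hw0, hfix, hfix', hne⟩ : ∃ w : k, w ≠ 0 ∧ (w + φ a / w) ^ q = w + φ a / w ∧
      (w * ζ + φ a / (w * ζ)) ^ q = w * ζ + φ a / (w * ζ) ∧ w * (w * ζ) ≠ φ a := by
    by_cases hc : y * (y * ζ) = φ a
    · refine ⟨y * ζ, mul_ne_zero hy0 (hζ.ne_zero hd.ne_zero), by simpa using hy 1,
        by simpa [mul_assoc, ← sq] using hy 2, fun e => ?_⟩
      have h5 : ζ ^ 2 = 1 := mul_left_cancel₀ (mul_ne_zero hy0 (mul_ne_zero hy0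
        (hζ.ne_zero hd.ne_zero))) (by linear_combination e - hc)
      have := Nat.le_of_dvd two_pos ((hζ.pow_eq_one_iff_dvd 2).1 h5)
      omega
    · exact ⟨y, hy0, by simpa using hy 0, by simpa using hy 1, hc⟩
  obtain ⟨x, hx⟩ := exists_of_frobenius_fixed hfix
  obtain ⟨x', hx'⟩ := exists_of_frobenius_fixed hfix'
  have hζ0 : ζ ≠ 0 := hζ.ne_zero hd.ne_zero
  have hζn : ζ ^ n = 1 := (hζ.pow_eq_one_iff_dvd n).2 hdn
  have e : φ ((dickson 1 a n).eval x) = φ ((dickson 1 a n).eval x') := by
    rw [dickson_eval_map, dickson_eval_map, hx, hx']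
    conv_lhs => rw [show φ a = w * (φ a / w) from (mul_div_cancel₀ _ hw0).symm,
      mul_div_cancel_left₀ _ hw0, dickson_eval_add]
    conv_rhs => rw [show φ a = (w * ζ) * (φ a / (w * ζ)) from
        (mul_div_cancel₀ _ (mul_ne_zero hw0 hζ0)).symm,
      mul_div_cancel_left₀ _ (mul_ne_zero hw0 hζ0), dickson_eval_add]
    rw [div_pow, div_pow, mul_pow, hζn, mul_one]
  have h5 : w + φ a / w = w * ζ + φ a / (w * ζ) := by
    rw [← hx, ← hx', hinj (φ.injective e)]
  have h6 : (1 - ζ) * (w * (w * ζ) - φ a) = 0 := by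
    linear_combination (w * ζ) * h5 - ζ * div_mul_cancel₀ (φ a) hw0 +
      div_mul_cancel₀ (φ a) (mul_ne_zero hw0 hζ0)
  rcases mul_eq_zero.1 h6 with h7 | h7
  · exact hζ.ne_one hd.one_lt (sub_eq_zero.1 h7).symm
  · exact hne (sub_eq_zero.1 h7)

/-- **Dickson's theorem.** -/
theorem dickson_bijective_iff {n : ℕ} {a : F} (ha : a ≠ 0) :
    Function.Bijective (fun x => (dickson 1 a n).eval x) ↔ n.Coprime (q ^ 2 - 1) := by
  refine ⟨fun h => ?_, fun h => dickson_bijective h ha⟩
  by_contra hn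
  obtain ⟨d, hd, hdn, hdq⟩ := Nat.Prime.not_coprime_iff_dvd.1 hn
  exact dickson_not_injective hd hdn hdq ha h.1

/-- **The monomials.** -/
theorem pow_bijective_iff {n : ℕ} (hn : n ≠ 0) :
    Function.Bijective (fun x : F => x ^ n) ↔ n.Coprime (q - 1) := by
  classical
  rw [← Finite.injective_iff_bijective]
  constructor
  · intro h
    by_contra hc
    obtain ⟨d, hd, hdn, hdq⟩ := Nat.Prime.not_coprime_iff_dvd.1 hc
    haveI := Fact.mk hd
    obtain ⟨z, hz⟩ := exists_prime_orderOf_dvd_card (G := Fˣ) d (by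
      rwa [Fintype.card_units])
    have h1 : ((z : F)) ^ n = (1 : F) ^ n := by
      rw [one_pow, ← Units.val_pow_eq_pow_val, orderOf_dvd_iff_pow_eq_one.1 (hz.symm ▸ hdn),
        Units.val_one]
    have := h h1
    rw [Units.val_eq_one] at this
    rw [this, orderOf_one] at hz
    exact hd.one_lt.ne hz
  · intro hc x y hxy
    by_cases hy : y = 0
    · subst hy
      simpa [zero_pow hn, pow_eq_zero_iff hn] using hxy
    · have hx : x ≠ 0 := fun e => by
        rw [e] at hxy
        simp [zero_pow hn, eq_comm, pow_eq_zero_iff hn, hy] at hxy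
      have := (pow_gcd_eq_one (a := x / y) (m := n) (n := q - 1)).2
        ⟨by rw [div_pow]; exact (div_eq_one_iff_eq (pow_ne_zero _ hy)).2 hxy,
        FiniteField.pow_card_sub_one_eq_one _ (div_ne_zero hx hy)⟩
      rwa [hc, pow_one, div_eq_one_iff_eq hy] at this

theorem dickson_zero_bijective_iff {n : ℕ} (hn : n ≠ 0) :
    Function.Bijective (fun x => (dickson 1 (0 : F) n).eval x) ↔ n.Coprime (q - 1) := by
  have h : (fun x => (dickson 1 (0 : F) n).eval x) = fun x => x ^ n := funext fun x => by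
    simpa [zero_pow hn] using dickson_eval_add x 0 n
  rw [h, pow_bijective_iff hn]

variable (a : ℤ) {n : ℕ}

/-- **Infinitely many primes.** -/
theorem exists_prime_gt_bijective (hn : n.Coprime 6) (N : ℕ) :
    ∃ p, N < p ∧ ∃ _ : Fact p.Prime,
      Function.Bijective fun x : ZMod p => ((dickson 1 a n).map (Int.castRingHom _)).eval x := by
  have hn0 : n ≠ 0 := fun e => by rw [e] at hn; norm_num at hn
  haveI : NeZero n := ⟨hn0⟩
  have h2 : IsUnit ((2 : ℕ) : ZMod n) :=
    (ZMod.isUnit_iff_coprime 2 n).2 (Nat.Coprime.coprime_dvd_left (by norm_num) hn.symm)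
  obtain ⟨p, hpN, hp, hpn⟩ := Nat.forall_exists_prime_gt_and_eq_mod h2 N
  haveI := Fact.mk hp
  refine ⟨p, hpN, ⟨hp⟩, ?_⟩
  rw [map_dickson]
  have hcop : n.Coprime (p ^ 2 - 1) := by
    refine Nat.coprime_of_dvd fun d hd hdn hdp => ?_
    have h3 : ((p : ℕ) : ZMod d) = 2 := by
      have := congrArg (ZMod.castHom hdn (ZMod d)) hpn
      rwa [map_natCast, map_natCast, Nat.cast_ofNat] at this
    rw [← ZMod.natCast_eq_zero_iff, Nat.cast_sub (Nat.one_le_pow 2 p hp.pos),
      Nat.cast_pow, h3] at hdp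
    norm_num at hdp
    have h4 : d ∣ 3 := by
      rw [← ZMod.natCast_eq_zero_iff]
      exact_mod_cast hdp
    rw [Nat.prime_dvd_prime_iff_eq hd Nat.prime_three] at h4
    subst h4
    have := Nat.dvd_gcd hdn (show 3 ∣ 6 by norm_num)
    rw [hn] at this
    norm_num at this
  rw [eq_intCast]
  by_cases ha : (a : ZMod p) = 0
  · rw [ha, dickson_zero_bijective_iff hn0, ZMod.card]
    exact Nat.Coprime.coprime_dvd_right
      (by rw [← one_pow 2, Nat.sq_sub_sq, one_pow]; exact dvd_mul_left _ _) hcop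
  · rwa [dickson_bijective_iff ha, ZMod.card]

/-- **Never for `2 ∣ n` or `3 ∣ n`.** -/
theorem not_bijective_of_dvd_six (hn : ¬ n.Coprime 6) {p : ℕ} [hp : Fact p.Prime] (h3 : 3 < p)
    (ha : ¬ (p : ℤ) ∣ a) :
    ¬ Function.Bijective fun x : ZMod p => ((dickson 1 a n).map (Int.castRingHom _)).eval x := by
  rw [map_dickson, eq_intCast,
    dickson_bijective_iff (by rwa [Ne, ZMod.intCast_zmod_eq_zero_iff_dvd]), ZMod.card]
  refine fun h => hn (Nat.Coprime.coprime_dvd_right ?_ h)
  have hodd : p % 2 = 1 := hp.out.eq_two_or_odd.resolve_left (by omega)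
  have hm3 : p % 3 ≠ 0 := fun e => by
    have := (Nat.prime_dvd_prime_iff_eq Nat.prime_three hp.out).1 (Nat.dvd_of_mod_eq_zero e)
    omega
  have : p % 6 = 1 ∨ p % 6 = 5 := by omega
  rcases this with e | e <;>
    · rw [← Nat.modEq_iff_dvd' (Nat.one_le_pow 2 p hp.out.pos)]
      simp [Nat.ModEq, Nat.pow_mod, e]

end FA.PermutationPolynomial

end
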