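import Mathlib.FieldTheory.Finite.Basic
import Mathlib.Algebra.Polynomial.Div
import Mathlib.Data.Nat.Choose.Sum

/-!
# Hermite's criterion for permutation polynomials

Over a field of `q` elements the sum of the values of a polynomial is minus the coefficient of
`X ^ (q - 1)` of its reduction modulo `X ^ q - X`. A polynomial with exactly one zero is bijective
as soon as the sums of the powers `f ^ t` vanish for `0 < t < q - 1`.
-/

set_option autoImplicit false
set_option linter.style.haveILetI false

noncomputable section

namespace FA.PermutationPolynomial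

open Polynomial Finset

variable {F : Type*} [Field F] [Fintype F]

local notation "q" => Fintype.card F

theorem monic_fieldPoly : (X ^ q - X : F[X]).Monic :=
  monic_X_pow_sub (by rw [degree_X]; exact_mod_cast Fintype.one_lt_card)

theorem natDegree_modByMonic_le (f : F[X]) : (f %ₘ (X ^ q - X)).natDegree ≤ q - 1 := by
  have h := natDegree_modByMonic_lt f monic_fieldPoly (fun e => by
    have := congrArg natDegree e
    rw [FiniteField.X_pow_card_sub_X_natDegree_eq F Fintype.one_lt_card, natDegree_one] at this
    have hq : 1 < q := Fintype.one_lt_card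
    omega)
  rw [FiniteField.X_pow_card_sub_X_natDegree_eq F Fintype.one_lt_card] at h
  omega

theorem eval_modByMonic (f : F[X]) (x : F) : (f %ₘ (X ^ q - X)).eval x = f.eval x := by
  conv_rhs => rw [← modByMonic_add_div f (X ^ q - X)]
  simp [FiniteField.pow_card]

/-- The sum of all `x ^ (q - 1)`. -/
theorem sum_pow_card_sub_one : ∑ x : F, x ^ (q - 1) = -1 := by
  classical
  rw [← Finset.sum_erase_add _ _ (mem_univ (0 : F)),
    zero_pow (by have := Fintype.one_lt_card (α := F); omega), add_zero,
    Finset.sum_congr rfl fun x hx => FiniteField.pow_card_sub_one_eq_one x (ne_of_mem_erase hx),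
    Finset.sum_const, card_erase_of_mem (mem_univ _), card_univ, nsmul_eq_mul, mul_one,
    Nat.cast_sub Fintype.card_pos, FiniteField.cast_card_eq_zero, zero_sub, Nat.cast_one]

/-- **The sum of the values of a polynomial.** -/
theorem sum_eval (f : F[X]) :
    ∑ x : F, f.eval x = -(f %ₘ (X ^ q - X)).coeff (q - 1) := by
  classical
  rw [Finset.sum_congr rfl fun x _ => (eval_modByMonic f x).symm]
  set g := f %ₘ (X ^ q - X)
  rw [Finset.sum_congr rfl fun x _ =>
    eval_eq_sum_range' (n := q - 1 + 1) (Nat.lt_succ_of_le (natDegree_modByMonic_le f)) x]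
  rw [Finset.sum_comm, Finset.sum_range_succ, ← Finset.mul_sum, sum_pow_card_sub_one, mul_neg,
    mul_one, Finset.sum_eq_zero fun i hi => by
      rw [← Finset.mul_sum, FiniteField.sum_pow_lt_card_sub_one _ i (mem_range.1 hi), mul_zero],
    zero_add]

theorem natDegree_le_iff_sum_eq_zero (f : F[X]) :
    (f %ₘ (X ^ q - X)).natDegree ≤ q - 2 ↔ ∑ x : F, f.eval x = 0 := by
  have hq : 1 < q := Fintype.one_lt_card
  rw [sum_eval, neg_eq_zero]
  refine ⟨fun h => coeff_eq_zero_of_natDegree_lt (by omega), fun h => ?_⟩
  rw [natDegree_le_iff_coeff_eq_zero]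
  intro i hi
  rcases Nat.lt_or_ge (q - 1) i with h1 | h1
  · exact coeff_eq_zero_of_natDegree_lt ((natDegree_modByMonic_le f).trans_lt h1)
  · rwa [show i = q - 1 by omega]

/-- **Hermite's criterion.** -/
theorem bijective_iff (f : F[X]) :
    Function.Bijective (fun x => f.eval x) ↔ (∃! x, f.eval x = 0) ∧
      ∀ t, 0 < t → t ≤ q - 2 → (f ^ t %ₘ (X ^ q - X)).natDegree ≤ q - 2 := by
  classical
  have hq : 1 < q := Fintype.one_lt_card
  simp only [natDegree_le_iff_sum_eq_zero, eval_pow]
  constructor
  · intro h
    refine ⟨h.existsUnique 0, fun t ht htq => ?_⟩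
    rw [h.sum_comp (fun x => x ^ t)]
    exact FiniteField.sum_pow_lt_card_sub_one F t (by omega)
  · rintro ⟨hroot, hsum⟩
    obtain ⟨x₀, hx₀, huniq⟩ := hroot
    refine Finite.surjective_iff_bijective.1 fun c => ?_
    by_contra hc
    rw [not_exists] at hc
    have hlast : ∑ x, f.eval x ^ (q - 1) = -1 := by
      rw [← Finset.sum_erase_add _ _ (mem_univ x₀), hx₀,
        zero_pow (by omega), add_zero,
        Finset.sum_congr rfl fun x hx => FiniteField.pow_card_sub_one_eq_one (f.eval x) fun e =>
          ne_of_mem_erase hx (huniq x e),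
        Finset.sum_const, card_erase_of_mem (mem_univ _), card_univ, nsmul_eq_mul, mul_one,
        Nat.cast_sub Fintype.card_pos, FiniteField.cast_card_eq_zero, zero_sub, Nat.cast_one]
    have h1 : ∑ x, (f.eval x + -c) ^ (q - 1) = -1 := by
      simp only [add_pow]
      rw [Finset.sum_comm, Finset.sum_range_succ, Finset.sum_eq_zero fun t ht => ?_, zero_add]
      · simp [hlast]
      · rw [mem_range] at ht
        simp only [mul_assoc, ← Finset.sum_mul]
        rcases Nat.eq_zero_or_pos t with rfl | ht0
        · simp
        · rw [hsum t ht0 (by omega), zero_mul]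
    have h2 : ∑ x, (f.eval x + -c) ^ (q - 1) = 0 := by
      rw [Finset.sum_congr rfl fun x _ => FiniteField.pow_card_sub_one_eq_one _
        (by rw [← sub_eq_add_neg, sub_ne_zero]; exact hc x)]
      simp
    rw [h1] at h2
    exact one_ne_zero (neg_eq_zero.1 h2)

/-- **A degree dividing `q - 1`** gives no permutation. -/
theorem not_bijective_of_dvd {f : F[X]} (hd : 1 < f.natDegree) (hdvd : f.natDegree ∣ q - 1) :
    ¬ Function.Bijective (fun x => f.eval x) := by
  intro h
  obtain ⟨t, ht⟩ := hdvd
  have hq : 1 < q := Fintype.one_lt_card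
  have ht0 : 0 < t := by
    rcases Nat.eq_zero_or_pos t with rfl | h0
    · simp at ht; omega
    · exact h0
  have htq : t ≤ q - 2 := by
    have : 2 * t ≤ q - 1 := ht ▸ Nat.mul_le_mul_right t hd
    omega
  have hdeg : (f ^ t).natDegree = q - 1 := by rw [natDegree_pow, ht, mul_comm]
  have hlt : (f ^ t).degree < (X ^ q - X : F[X]).degree := by
    refine degree_lt_degree ?_
    rw [hdeg, FiniteField.X_pow_card_sub_X_natDegree_eq F hq]
    omega
  have := ((bijective_iff f).1 h).2 t ht0 htq
  rw [(modByMonic_eq_self_iff monic_fieldPoly).2 hlt, hdeg] at this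
  omega

end FA.PermutationPolynomial

end
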